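/-
S48 (Deligne-Serre), block LIFT, leaf L5: trace and determinant of a matrix of finite order are
integral.
-/
import Mathlib

set_option autoImplicit false

namespace Fermat.Agent.S48.Lift

open Polynomial Matrix

variable {K : Type*} [Field K] [IsAlgClosed K]

/-- every root of the characteristic polynomial of `M`, `M ^ N = 1`, is an `N`-th root of unity
(an eigenvector: `Module.End.hasEigenvalue_iff_isRoot_charpoly` for `Matrix.toLin'`/`mulVecLin`, or
`Matrix.aeval`-spectral mapping; or directly: `det (μ - M) = 0` gives `v ≠ 0`, `M v = μ v`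
by `Matrix.exists_mulVec_eq_zero_iff`). -/
theorem pow_eq_one_of_isRoot_charpoly {n : Type*} [Fintype n] [DecidableEq n] {M : Matrix n n K}
    {N : ℕ} (hM : M ^ N = 1) {μ : K} (hμ : M.charpoly.IsRoot μ) : μ ^ N = 1 := by
  have hdet : (Matrix.scalar n μ - M).det = 0 := by
    rw [← Matrix.eval_charpoly]
    exact hμ
  obtain ⟨v, hv0, hv⟩ := Matrix.exists_mulVec_eq_zero_iff.2 hdet
  have hMv : M.mulVec v = μ • v := by
    rw [Matrix.sub_mulVec, sub_eq_zero] at hv
    rw [← hv]
    funext i
    simp [Matrix.mulVec, dotProduct, Matrix.scalar_apply, Matrix.diagonal_apply]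
  have hpow : ∀ j : ℕ, (M ^ j).mulVec v = μ ^ j • v := by
    intro j
    induction j with
    | zero => simp
    | succ j ih =>
      rw [pow_succ, ← Matrix.mulVec_mulVec, hMv, Matrix.mulVec_smul, ih, smul_smul, pow_succ,
        mul_comm]
  have h1 := hpow N
  rw [hM, Matrix.one_mulVec] at h1
  obtain ⟨i, hi⟩ := Function.ne_iff.1 hv0
  have h2 := congrFun h1 i
  rw [Pi.smul_apply, smul_eq_mul] at h2
  have h3 : (μ ^ N - 1) * v i = 0 := by rw [sub_mul, ← h2, one_mul, sub_self]
  rcases mul_eq_zero.1 h3 with h4 | h4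
  · exact sub_eq_zero.1 h4
  · exact absurd h4 hi

/-- `Matrix.trace_eq_sum_roots_charpoly`, `IsIntegral.multiset_sum`, `IsIntegral.of_pow`. -/
theorem isIntegral_trace_of_pow_eq_one {n : Type*} [Fintype n] [DecidableEq n] {M : Matrix n n K}
    {N : ℕ} (hN : 0 < N) (hM : M ^ N = 1) : IsIntegral ℤ M.trace := by
  rw [Matrix.trace_eq_sum_roots_charpoly]
  apply IsIntegral.multiset_sum
  intro μ hμ
  have hroot : M.charpoly.IsRoot μ := (Polynomial.mem_roots'.1 hμ).2
  apply IsIntegral.of_pow hN
  rw [pow_eq_one_of_isRoot_charpoly hM hroot]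
  exact isIntegral_one

/-- `det M ^ N = 1`. -/
theorem isIntegral_det_of_pow_eq_one {n : Type*} [Fintype n] [DecidableEq n] {M : Matrix n n K}
    {N : ℕ} (hN : 0 < N) (hM : M ^ N = 1) : IsIntegral ℤ M.det := by
  apply IsIntegral.of_pow hN
  rw [← Matrix.det_pow, hM, Matrix.det_one]
  exact isIntegral_one

end Fermat.Agent.S48.Lift
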