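/-
S48 (Deligne-Serre), block LIFT, leaf L6: localisation of a ring integrally closed in a field.
-/
import Mathlib

set_option autoImplicit false

namespace Fermat.Agent.S48.Lift

universe u

/-- The localisation `O` of `R` at the kernel of `φ : R → k`, packaged: a ring `O` with `R → O → K`,
integrally closed in `K`, and a surjective local homomorphism `O → k` extending `φ`. -/
theorem exists_localization {R : Type u} {K k : Type*} [CommRing R] [Field K] [Algebra R K]
    [IsIntegrallyClosedIn R K] [Field k] (φ : R →+* k) (hφ : Function.Surjective φ) :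
    ∃ (O : Type u) (_ : CommRing O) (_ : Algebra O K) (_ : IsIntegrallyClosedIn O K)
      (j : R →+* O) (ψ : O →+* k), IsLocalHom ψ ∧ Function.Surjective ψ ∧
        (∀ r, ψ (j r) = φ r) ∧ (∀ r, algebraMap O K (j r) = algebraMap R K r) := by
  have hRK : Function.Injective (algebraMap R K) := IsIntegralClosure.algebraMap_injective R R K
  let m : Ideal R := RingHom.ker φ
  have hm : m.IsMaximal := RingHom.ker_isMaximal_of_surjective φ hφ
  have : m.IsPrime := hm.isPrime
  let O := Localization.AtPrime m
  have hK : ∀ y : m.primeCompl, IsUnit (algebraMap R K y) := by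
    intro y
    rw [isUnit_iff_ne_zero]
    intro h0
    have : (y : R) = 0 := hRK (by rw [h0, map_zero])
    exact y.2 (by rw [this]; exact m.zero_mem)
  have hk : ∀ y : m.primeCompl, IsUnit (φ y) := by
    intro y
    rw [isUnit_iff_ne_zero]
    intro h0
    exact y.2 ((RingHom.mem_ker).2 h0)
  let ιK : O →+* K := IsLocalization.lift (M := m.primeCompl) hK
  let ψ : O →+* k := IsLocalization.lift (M := m.primeCompl) hk
  let : Algebra O K := ιK.toAlgebra
  have hιK : ∀ r, algebraMap O K (algebraMap R O r) = algebraMap R K r := fun r =>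
    IsLocalization.lift_eq (M := m.primeCompl) hK r
  have hψ : ∀ r, ψ (algebraMap R O r) = φ r := fun r =>
    IsLocalization.lift_eq (M := m.primeCompl) hk r
  have : IsScalarTower R O K := IsScalarTower.of_algebraMap_eq fun r => (hιK r).symm
  have hinj : Function.Injective (algebraMap O K) := by
    rw [injective_iff_map_eq_zero]
    intro x hx
    obtain ⟨r, s, rfl⟩ := IsLocalization.exists_mk'_eq m.primeCompl x
    have h1 : algebraMap O K (IsLocalization.mk' O r s) * algebraMap R K s = algebraMap R K r := by
      rw [← hιK, ← hιK, ← map_mul, IsLocalization.mk'_spec]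
    rw [hx, zero_mul] at h1
    have : r = 0 := hRK (by rw [← h1, map_zero])
    rw [this, IsLocalization.mk'_zero]
  have hic : IsIntegrallyClosedIn O K := by
    refine ⟨hinj, fun {x} => ⟨fun hx => ?_, ?_⟩⟩
    · obtain ⟨s, hs⟩ := IsIntegral.exists_multiple_integral_of_isLocalization m.primeCompl x hx
      obtain ⟨r, hr⟩ := IsIntegrallyClosedIn.isIntegral_iff.1 hs
      refine ⟨IsLocalization.mk' O r s, ?_⟩
      have h1 : algebraMap O K (IsLocalization.mk' O r s) * algebraMap R K s = algebraMap R K r := by
        rw [← hιK, ← hιK, ← map_mul, IsLocalization.mk'_spec]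
      have h2 : algebraMap R K r = x * algebraMap R K s := by
        rw [hr, Submonoid.smul_def, Algebra.smul_def, mul_comm]
      rw [h2] at h1
      exact mul_right_cancel₀ (hK s).ne_zero h1
    · rintro ⟨y, rfl⟩
      exact isIntegral_algebraMap
  refine ⟨O, inferInstance, inferInstance, hic, algebraMap R O, ψ, ⟨fun x hx => ?_⟩, ?_, hψ, hιK⟩
  · obtain ⟨r, s, rfl⟩ := IsLocalization.exists_mk'_eq m.primeCompl x
    have h1 : ψ (IsLocalization.mk' O r s) * φ s = φ r := by
      rw [← hψ, ← hψ, ← map_mul, IsLocalization.mk'_spec]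
    have h2 : φ r ≠ 0 := by
      rw [← h1]
      exact mul_ne_zero hx.ne_zero (hk s).ne_zero
    have h3 : r ∈ m.primeCompl := fun h => h2 ((RingHom.mem_ker).1 h)
    have h4 : IsUnit (algebraMap R O r) := IsLocalization.map_units O (⟨r, h3⟩ : m.primeCompl)
    have h5 : IsLocalization.mk' O r s * algebraMap R O s = algebraMap R O r :=
      IsLocalization.mk'_spec O r s
    rw [← h5] at h4
    exact isUnit_of_mul_isUnit_left h4
  · intro y
    obtain ⟨r, rfl⟩ := hφ y
    exact ⟨algebraMap R O r, hψ r⟩

end Fermat.Agent.S48.Lift
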