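/-
S48 (Deligne-Serre), block LIFT, leaf L1: lifting idempotents by a polynomial.
`φ : O → k` a local homomorphism to a field (`x` is a unit as soon as `φ x ≠ 0`).
-/
import Mathlib

set_option autoImplicit false

namespace Fermat.Agent.S48.Lift

open Polynomial

variable {O k : Type*} [CommRing O] [Field k] (φ : O →+* k) [IsLocalHom φ]
include φ

/-- `X - α`, `X - β` are coprime when `φ α = 0`, `φ β ≠ 0`: `(X - α) - (X - β) = C (β - α)`, a unit. -/
theorem isCoprime_X_sub_C {α β : O} (hα : φ α = 0) (hβ : φ β ≠ 0) :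
    IsCoprime (X - C α : O[X]) (X - C β) := by
  have hu : IsUnit (β - α) := by
    apply isUnit_of_map_unit φ
    rw [map_sub, hα, sub_zero]
    exact isUnit_iff_ne_zero.2 hβ
  obtain ⟨u, hu⟩ := hu
  refine ⟨C (↑u⁻¹ : O), -C (↑u⁻¹ : O), ?_⟩
  have h1 : C (↑u⁻¹ : O) * (X - C α) + -C (↑u⁻¹ : O) * (X - C β) = C (↑u⁻¹ * (β - α)) := by
    rw [C_mul, C_sub]
    ring
  rw [h1, ← hu, Units.inv_mul, C_1]

theorem isCoprime_X_sub_C_prod {α : O} (hα : φ α = 0) (b : Multiset O) (hb : ∀ β ∈ b, φ β ≠ 0) :
    IsCoprime (X - C α : O[X]) (b.map (fun β => X - C β)).prod := by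
  induction b using Multiset.induction_on with
  | empty => simp [isCoprime_one_right]
  | cons x b ih =>
    rw [Multiset.map_cons, Multiset.prod_cons]
    exact IsCoprime.mul_right (isCoprime_X_sub_C φ hα (hb x (Multiset.mem_cons_self x b)))
      (ih fun β hβ => hb β (Multiset.mem_cons_of_mem hβ))

theorem isCoprime_prod_prod (a b : Multiset O) (ha : ∀ α ∈ a, φ α = 0) (hb : ∀ β ∈ b, φ β ≠ 0) :
    IsCoprime (a.map (fun α => (X - C α : O[X]))).prod (b.map (fun β => X - C β)).prod := by
  induction a using Multiset.induction_on with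
  | empty => simp [isCoprime_one_left]
  | cons x a ih =>
    rw [Multiset.map_cons, Multiset.prod_cons]
    exact IsCoprime.mul_left (isCoprime_X_sub_C_prod φ (ha x (Multiset.mem_cons_self x a)) b hb)
      (ih fun α hα => ha α (Multiset.mem_cons_of_mem hα))

/-- Polynomial form.  `s₀ = s.filter (φ · = 0)`, `s₁ = s.filter (φ · ≠ 0)`,
`P₀ = X * ∏_{s₀} (X - α)`, `P₁ = (X - 1) * ∏_{s₁} (X - α)` are coprime
(`IsCoprime.mul_left/right`, `IsCoprime.multiset_prod...` or induction on the multisets;
`X = X - C 0`, `X - 1 = X - C 1`), `U P₀ + V P₁ = 1`.  `f = U P₀`, `g = U ∏_{s₀} + V ∏_{s₁}`,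
`h = - U V X (X - 1)`; `Multiset.filter_add_not`. -/
theorem exists_idem_poly (s : Multiset O) :
    ∃ f g h : O[X], f - X = (X - X * X) * g ∧
      f * f - f = h * (s.map (fun α => X - C α)).prod := by
  classical
  set s₀ := s.filter (fun α => φ α = 0) with hs₀
  set s₁ := s.filter (fun α => ¬ φ α = 0) with hs₁
  have hs : s = s₀ + s₁ := (Multiset.filter_add_not _ s).symm
  have hcop := isCoprime_prod_prod φ (0 ::ₘ s₀) (1 ::ₘ s₁)
    (by
      intro α hα
      rcases Multiset.mem_cons.1 hα with rfl | hα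
      · exact map_zero φ
      · exact (Multiset.mem_filter.1 hα).2)
    (by
      intro β hβ
      rcases Multiset.mem_cons.1 hβ with rfl | hβ
      · rw [map_one]; exact one_ne_zero
      · exact (Multiset.mem_filter.1 hβ).2)
  rw [Multiset.map_cons, Multiset.prod_cons, Multiset.map_cons, Multiset.prod_cons, C_0, sub_zero,
    C_1] at hcop
  set Q₀ := (s₀.map (fun α => (X - C α : O[X]))).prod with hQ₀
  set Q₁ := (s₁.map (fun α => (X - C α : O[X]))).prod with hQ₁
  have hQ : (s.map (fun α => (X - C α : O[X]))).prod = Q₀ * Q₁ := by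
    conv_lhs => rw [hs]
    rw [Multiset.map_add, Multiset.prod_add]
  obtain ⟨U, V, hUV⟩ := hcop
  refine ⟨U * (X * Q₀), U * Q₀ + V * Q₁, -(U * V * X * (X - 1)), ?_, ?_⟩
  · linear_combination X * hUV
  · rw [hQ]
    linear_combination (U * X * Q₀) * hUV

/-- LIFT-1: `a` in an `O`-algebra killed by a split monic polynomial: some polynomial `e` in `a` is an
idempotent congruent to `a` modulo `a - a²`. -/
theorem exists_idem {B : Type*} [Ring B] [Algebra O B] (a : B) (s : Multiset O)
    (hs : aeval a (s.map (fun α => X - C α)).prod = 0) :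
    ∃ f g : O[X], aeval a f * aeval a f = aeval a f ∧
      aeval a f - a = (a - a * a) * aeval a g := by
  obtain ⟨f, g, h, h1, h2⟩ := exists_idem_poly φ s
  refine ⟨f, g, ?_, ?_⟩
  · have := congrArg (aeval a) h2
    rw [map_sub, map_mul, map_mul, hs, mul_zero, sub_eq_zero] at this
    exact this
  · have := congrArg (aeval a) h1
    simpa only [map_sub, map_mul, aeval_X] using this

end Fermat.Agent.S48.Lift
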