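/-
S48 (Deligne-Serre), block LIFT, leaf L2: the abstract matrix form of the lifting theorem.
-/
import Fermat.Agent.S48.Lift.Idem

set_option autoImplicit false

namespace Fermat.Agent.S48.Lift

open Polynomial Matrix

variable {O k : Type*} [CommRing O] [Field k] (φ : O →+* k) [IsLocalHom φ]

/-- A square matrix over `O` whose reduction is `1` is invertible (`det` maps to `1`,
`RingHom.map_det`, `IsLocalHom`, `Matrix.isUnit_iff_isUnit_det`). -/
theorem isUnit_of_map_eq_one {n : Type*} [Fintype n] [DecidableEq n] (D : Matrix n n O)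
    (hD : D.map φ = 1) : IsUnit D := by
  rw [Matrix.isUnit_iff_isUnit_det]
  apply isUnit_of_map_unit φ
  have : φ D.det = (D.map φ).det := by
    rw [RingHom.map_det]; rfl
  rw [this, hD, det_one]
  exact isUnit_one

/-- An idempotent matrix which reduces to `0` is `0` (`1 - f` is a unit and `f (1 - f) = 0`). -/
theorem eq_zero_of_idem_of_map_eq_zero {n : Type*} [Fintype n] [DecidableEq n] (f : Matrix n n O)
    (hf : f * f = f) (hf0 : f.map φ = 0) : f = 0 := by
  have h1 : IsUnit (1 - f) := by
    apply isUnit_of_map_eq_one φ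
    have : (1 - f).map φ = φ.mapMatrix (1 - f) := rfl
    rw [this, map_sub, map_one]
    have : φ.mapMatrix f = f.map φ := rfl
    rw [this, hf0, sub_zero]
  have h2 : f * (1 - f) = 0 := by rw [mul_sub, mul_one, hf, sub_self]
  exact (h1.mul_left_eq_zero).1 h2

/-- a polynomial in `a` commutes with everything commuting with `a`. -/
theorem liftAbs_commute_aeval {B : Type*} [Ring B] [Algebra O B] {a t : B} (h : a * t = t * a)
    (f : O[X]) : aeval a f * t = t * aeval a f := by
  have h1 : Commute t a := h.symm
  have h2 : Commute t (aeval a f) := by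
    induction f using Polynomial.induction_on' with
    | add p q hp hq => rw [map_add]; exact hp.add_right hq
    | monomial n c =>
      rw [aeval_monomial]
      exact Commute.mul_right (Algebra.commutes c t).symm (h1.pow_right n)
  exact h2.eq.symm

/-- LIFT-2.  `T : G → M_I(O)` a representation, `a ∈ M_I(O)` commuting with it, whose reduction is
`Bb * Cb` with `Cb * Bb = 1`.  Then `h ↦ Cb * T̄ h * Bb` lifts to a representation over `O`. -/
theorem exists_lift_abs (hφ : Function.Surjective φ)
    (hsplit : ∀ P : O[X], P.Monic → ∃ s : Multiset O, P = (s.map (fun α => X - C α)).prod)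
    {G : Type*} [Monoid G] {I n : Type*} [Fintype I] [DecidableEq I] [Fintype n] [DecidableEq n]
    (T : G →* Matrix I I O) (a : Matrix I I O) (ha : ∀ h, a * T h = T h * a)
    (Bb : Matrix I n k) (Cb : Matrix n I k) (hCB : Cb * Bb = 1) (haBC : a.map φ = Bb * Cb) :
    ∃ ρ : G →* Matrix n n O, ∀ h, (ρ h).map φ = Cb * (T h).map φ * Bb := by
  -- (1) the idempotent
  obtain ⟨s, hs⟩ := hsplit a.charpoly (Matrix.charpoly_monic a)
  have hs0 : aeval a (s.map (fun α => X - C α)).prod = 0 := by
    rw [← hs]; exact Matrix.aeval_self_charpoly a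
  obtain ⟨f, g, hee, hea⟩ := exists_idem φ a s hs0
  set e : Matrix I I O := aeval a f with he
  have hidem : (Bb * Cb) * (Bb * Cb) = Bb * Cb := by
    rw [Matrix.mul_assoc, ← Matrix.mul_assoc Cb, hCB, Matrix.one_mul]
  have hemap : e.map φ = Bb * Cb := by
    have h1 : (e - a).map φ = 0 := by
      rw [hea, Matrix.map_mul]
      have : (a - a * a).map φ = 0 := by
        have h2 : (a - a * a).map φ = a.map φ - a.map φ * a.map φ := by
          rw [← Matrix.map_mul]
          exact Matrix.map_sub (f := φ) (fun x y => map_sub φ x y) a (a * a)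
        rw [h2, haBC, hidem, sub_self]
      rw [this, Matrix.zero_mul]
    have h3 : (e - a).map φ = e.map φ - a.map φ :=
      Matrix.map_sub (f := φ) (fun x y => map_sub φ x y) e a
    rw [h3, sub_eq_zero] at h1
    rw [h1, haBC]
  -- (2) commutation
  have hecomm : ∀ h, e * T h = T h * e := fun h => liftAbs_commute_aeval (ha h) f
  -- (3) lifts
  let B₀ : Matrix I n O := Bb.map (Function.surjInv hφ)
  let C₀ : Matrix n I O := Cb.map (Function.surjInv hφ)
  have hB₀ : B₀.map φ = Bb := by
    ext i j; simp [B₀, Matrix.map_apply, Function.surjInv_eq hφ]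
  have hC₀ : C₀.map φ = Cb := by
    ext i j; simp [C₀, Matrix.map_apply, Function.surjInv_eq hφ]
  let D : Matrix n n O := C₀ * e * B₀
  have hDmap : D.map φ = 1 := by
    show (C₀ * e * B₀).map φ = 1
    rw [Matrix.map_mul, Matrix.map_mul, hC₀, hB₀, hemap, ← Matrix.mul_assoc, hCB, Matrix.one_mul, hCB]
  have hDu : IsUnit D := isUnit_of_map_eq_one φ D hDmap
  obtain ⟨Di, hDDi, hDiD⟩ : ∃ Di : Matrix n n O, D * Di = 1 ∧ Di * D = 1 := by
    obtain ⟨u, hu⟩ := hDu
    exact ⟨↑u⁻¹, by rw [← hu]; exact u.mul_inv, by rw [← hu]; exact u.inv_mul⟩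
  have hDimap : Di.map φ = 1 := by
    have := congrArg (fun M => M.map φ) hDDi
    simp only [Matrix.map_mul, hDmap, Matrix.one_mul] at this
    rw [this]
    exact map_one φ.mapMatrix
  let B : Matrix I n O := e * B₀ * Di
  let C : Matrix n I O := C₀ * e
  have hCBO : C * B = 1 := by
    show C₀ * e * (e * B₀ * Di) = 1
    have : C₀ * e * (e * B₀ * Di) = C₀ * (e * e) * B₀ * Di := by
      simp only [Matrix.mul_assoc]
    rw [this, hee]
    exact hDDi
  have heB : e * B = B := by
    show e * (e * B₀ * Di) = e * B₀ * Di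
    rw [← Matrix.mul_assoc, ← Matrix.mul_assoc, hee]
  have hCe : C * e = C := by
    show C₀ * e * e = C₀ * e
    rw [Matrix.mul_assoc, hee]
  -- (4) `B C = e`
  have hBC : B * C = e := by
    have h1 : e * (B * C) = B * C := by rw [← Matrix.mul_assoc, heB]
    have h2 : (B * C) * e = B * C := by rw [Matrix.mul_assoc, hCe]
    have h3 : (B * C) * (B * C) = B * C := by
      rw [Matrix.mul_assoc, ← Matrix.mul_assoc C, hCBO, Matrix.one_mul]
    have h4 : (e - B * C) * (e - B * C) = e - B * C := by
      rw [sub_mul, mul_sub, mul_sub, hee, h1, h2, h3]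
      abel
    have h5 : (e - B * C).map φ = 0 := by
      have h6 : (e - B * C).map φ = e.map φ - (B * C).map φ :=
        Matrix.map_sub (f := φ) (fun x y => map_sub φ x y) e (B * C)
      have h7 : (B * C).map φ = Bb * Cb := by
        show (e * B₀ * Di * (C₀ * e)).map φ = _
        rw [Matrix.map_mul, Matrix.map_mul, Matrix.map_mul, Matrix.map_mul, hemap, hB₀, hC₀, hDimap,
          Matrix.mul_one]
        have : Bb * Cb * Bb * (Cb * (Bb * Cb)) = (Bb * Cb) * (Bb * Cb) * (Bb * Cb) := by
          simp only [Matrix.mul_assoc]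
        rw [this, hidem, hidem]
      rw [h6, hemap, h7, sub_self]
    have := eq_zero_of_idem_of_map_eq_zero φ _ h4 h5
    exact (sub_eq_zero.1 this).symm
  -- (5) the representation
  refine ⟨{ toFun := fun h => C * T h * B
            map_one' := by rw [map_one, Matrix.mul_one, hCBO]
            map_mul' := fun h h' => ?_ }, fun h => ?_⟩
  · have : C * T h * B * (C * T h' * B) = C * T h * (B * C) * T h' * B := by
      simp only [Matrix.mul_assoc]
    rw [this, hBC, Matrix.mul_assoc (C * T h), hecomm, map_mul]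
    have : C * T h * (T h' * e) * B = C * (T h * T h') * (e * B) := by
      simp only [Matrix.mul_assoc]
    rw [this, heB]
  · show (C₀ * e * T h * (e * B₀ * Di)).map φ = _
    rw [Matrix.map_mul, Matrix.map_mul, Matrix.map_mul, Matrix.map_mul, Matrix.map_mul, hemap, hB₀, hC₀,
      hDimap, Matrix.mul_one]
    have h1 : Cb * (Bb * Cb) = Cb := by rw [← Matrix.mul_assoc, hCB, Matrix.one_mul]
    have h2 : Bb * Cb * Bb = Bb := by rw [Matrix.mul_assoc, hCB, Matrix.mul_one]
    rw [h1, h2]

end Fermat.Agent.S48.Lift
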