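/-
S48 (Deligne-Serre), block LIFT, leaf L3: the lifting theorem over a "henselian" local ring:
a representation of a finite group of order prime to the residue characteristic lifts.
-/
import Fermat.Agent.S48.Lift.Abs

set_option autoImplicit false

namespace Fermat.Agent.S48.Lift

open Polynomial Matrix

variable {O k : Type*} [CommRing O] [Field k] (φ : O →+* k) [IsLocalHom φ]

/-- right translation matrices on `G × n`. -/
def regT (O : Type*) [CommRing O] {G : Type*} [Group G] [DecidableEq G] (n : Type*) [DecidableEq n]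
    (h : G) : Matrix (G × n) (G × n) O :=
  fun p q => if q.1 = p.1 * h ∧ p.2 = q.2 then 1 else 0

theorem regT_mul_apply {G : Type*} [Group G] [Fintype G] [DecidableEq G] {n m : Type*} [Fintype n]
    [DecidableEq n] (h : G) (M : Matrix (G × n) m O) (x : G) (i : n) (j : m) :
    (regT O n h * M) (x, i) j = M (x * h, i) j := by
  rw [Matrix.mul_apply, Finset.sum_eq_single (x * h, i)]
  · simp [regT]
  · rintro ⟨y, l⟩ - hne
    have : ¬ (y = x * h ∧ i = l) := by
      rintro ⟨rfl, rfl⟩; exact hne rfl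
    simp [regT, this]
  · intro hh; exact absurd (Finset.mem_univ _) hh

theorem mul_regT_apply {G : Type*} [Group G] [Fintype G] [DecidableEq G] {n m : Type*} [Fintype n]
    [DecidableEq n] (h : G) (M : Matrix m (G × n) O) (y : G) (i : n) (j : m) :
    (M * regT O n h) j (y, i) = M j (y * h⁻¹, i) := by
  rw [Matrix.mul_apply, Finset.sum_eq_single (y * h⁻¹, i)]
  · simp [regT]
  · rintro ⟨x, l⟩ - hne
    have : ¬ (y = x * h ∧ l = i) := by
      rintro ⟨rfl, rfl⟩; exact hne (by simp)
    simp [regT, this]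
  · intro hh; exact absurd (Finset.mem_univ _) hh

/-- `regT` as a monoid homomorphism. -/
def regTHom (O : Type*) [CommRing O] (G : Type*) [Group G] [Fintype G] [DecidableEq G] (n : Type*)
    [Fintype n] [DecidableEq n] : G →* Matrix (G × n) (G × n) O where
  toFun := regT O n
  map_one' := by
    ext ⟨x, i⟩ ⟨y, j⟩
    simp only [regT, mul_one, Matrix.one_apply, Prod.mk.injEq]
    by_cases h1 : x = y <;> by_cases h2 : i = j <;> simp [h1, h2, eq_comm]
  map_mul' := fun h h' => by
    ext ⟨x, i⟩ ⟨y, j⟩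
    rw [regT_mul_apply]
    simp only [regT, mul_assoc]

/-- LIFT-3. -/
theorem exists_lift (hφ : Function.Surjective φ)
    (hsplit : ∀ P : O[X], P.Monic → ∃ s : Multiset O, P = (s.map (fun α => X - C α)).prod)
    {G : Type*} [Group G] [Finite G] (hG : (Nat.card G : k) ≠ 0)
    {n : Type*} [Fintype n] [DecidableEq n] (ρbar : G →* Matrix n n k) :
    ∃ ρ : G →* Matrix n n O, ∀ g, (ρ g).map φ = ρbar g := by
  classical
  have : Fintype G := Fintype.ofFinite G
  set N : k := (Nat.card G : k) with hN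
  obtain ⟨c, hc⟩ := hφ N⁻¹
  let R : G → Matrix n n O := fun g => (ρbar g).map (Function.surjInv hφ)
  have hR : ∀ g i j, φ (R g i j) = ρbar g i j := fun g i j => by
    simp [R, Matrix.map_apply, Function.surjInv_eq hφ]
  let a : Matrix (G × n) (G × n) O := fun p q => c * R (p.1 * q.1⁻¹) p.2 q.2
  let Bb : Matrix (G × n) n k := fun p j => ρbar p.1 p.2 j
  let Cb : Matrix n (G × n) k := fun j q => N⁻¹ * ρbar q.1⁻¹ j q.2
  have ha : ∀ h, a * regTHom O G n h = regTHom O G n h * a := by
    intro h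
    ext ⟨x, i⟩ ⟨y, j⟩
    show (a * regT O n h) (x, i) (y, j) = (regT O n h * a) (x, i) (y, j)
    rw [regT_mul_apply, mul_regT_apply]
    simp only [a, _root_.mul_inv_rev, inv_inv, mul_assoc]
  have hsumρ : ∀ (x y : G) (i j : n), ∑ l, ρbar x i l * ρbar y l j = ρbar (x * y) i j := by
    intro x y i j
    rw [map_mul, Matrix.mul_apply]
  have hCB : Cb * Bb = 1 := by
    ext i j
    rw [Matrix.mul_apply, Fintype.sum_prod_type]
    simp only [Cb, Bb, mul_assoc]
    simp only [← Finset.mul_sum, hsumρ, inv_mul_cancel, map_one]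
    rw [Finset.sum_const, Finset.card_univ, nsmul_eq_mul, ← Nat.card_eq_fintype_card, ← hN,
      ← mul_assoc, inv_mul_cancel₀ hG, one_mul]
  have haBC : a.map φ = Bb * Cb := by
    ext ⟨x, i⟩ ⟨y, j⟩
    rw [Matrix.map_apply, Matrix.mul_apply]
    simp only [a, Bb, Cb]
    rw [map_mul, hc, hR, ← hsumρ, Finset.mul_sum]
    refine Finset.sum_congr rfl fun l _ => ?_
    ring
  obtain ⟨ρ, hρ⟩ := exists_lift_abs φ hφ hsplit (regTHom O G n) a ha Bb Cb hCB haBC
  refine ⟨ρ, fun g => ?_⟩
  rw [hρ]
  have hTmap : (regTHom O G n g).map φ = regT k n g := by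
    ext ⟨x, i⟩ ⟨y, j⟩
    show φ (regT O n g (x, i) (y, j)) = _
    simp only [regT]
    split_ifs <;> simp
  rw [hTmap, Matrix.mul_assoc]
  ext i j
  rw [Matrix.mul_apply, Fintype.sum_prod_type]
  simp only [regT_mul_apply]
  simp only [Cb, Bb, mul_assoc]
  simp only [← Finset.mul_sum, hsumρ, inv_mul_cancel_left]
  rw [Finset.sum_const, Finset.card_univ, nsmul_eq_mul, ← Nat.card_eq_fintype_card, ← hN,
    ← mul_assoc, inv_mul_cancel₀ hG, one_mul]

end Fermat.Agent.S48.Lift
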