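/-
S48 (Deligne-Serre), block LIFT, leaf L4: monic polynomials split over a ring which is integrally
closed in an algebraically closed field; its residue fields are algebraically closed.
-/
import Mathlib

set_option autoImplicit false

namespace Fermat.Agent.S48.Lift

open Polynomial

/-- Sketch: `P.map (algebraMap O K)` splits (`IsAlgClosed.splits`), is the product of `X - r` over its
roots (`Polynomial.eq_prod_roots_of_monic_of_splits_id` or `Splits.eq_prod_roots...`); every root is integral
over `O`, so comes from `O` (`IsIntegrallyClosedIn.isIntegral_iff` / `algebraMap_eq_of_integral`);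
`Polynomial.map_injective` with `IsIntegralClosure.algebraMap_injective O O K`. -/
theorem exists_multiset_of_monic {O K : Type*} [CommRing O] [Field K] [IsAlgClosed K] [Algebra O K]
    [IsIntegrallyClosedIn O K] (P : O[X]) (hP : P.Monic) :
    ∃ s : Multiset O, P = (s.map (fun α => X - C α)).prod := by
  have hinj : Function.Injective (algebraMap O K) := IsIntegralClosure.algebraMap_injective O O K
  have hQ : (P.map (algebraMap O K)).Monic := hP.map _
  have hprod := (IsAlgClosed.splits (P.map (algebraMap O K))).eq_prod_roots_of_monic hQ
  have hroot : ∀ r ∈ (P.map (algebraMap O K)).roots, ∃ y : O, algebraMap O K y = r := by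
    intro r hr
    apply IsIntegrallyClosedIn.algebraMap_eq_of_integral
    refine ⟨P, hP, ?_⟩
    have h1 := (mem_roots hQ.ne_zero).mp hr
    rwa [IsRoot.def, eval_map] at h1
  refine ⟨(P.map (algebraMap O K)).roots.attach.map (fun r => (hroot r.1 r.2).choose), ?_⟩
  apply Polynomial.map_injective _ hinj
  rw [Polynomial.map_multiset_prod, Multiset.map_map, Multiset.map_map]
  conv_lhs => rw [hprod, ← Multiset.attach_map_val (P.map (algebraMap O K)).roots, Multiset.map_map]
  congr 1
  refine Multiset.map_congr rfl fun r _ => ?_
  simp only [Function.comp_apply, Polynomial.map_sub, Polynomial.map_X, Polynomial.map_C,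
    (hroot r.1 r.2).choose_spec]

/-- Sketch: `IsAlgClosed.of_exists_root`; lift a monic polynomial over `k` to a monic polynomial over
`R` of the same degree (`Polynomial.lifts_and_degree_eq_and_monic`, or coefficientwise), split it. -/
theorem isAlgClosed_of_surjective {R K k : Type*} [CommRing R] [Field K] [IsAlgClosed K] [Algebra R K]
    [IsIntegrallyClosedIn R K] [Field k] (φ : R →+* k) (hφ : Function.Surjective φ) :
    IsAlgClosed k := by
  refine IsAlgClosed.of_exists_root k fun p hp hirr => ?_
  obtain ⟨q, hq, -, hqm⟩ := lifts_and_natDegree_eq_and_monic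
    ((mem_lifts p).mpr (Polynomial.map_surjective φ hφ p)) hp
  obtain ⟨s, hs⟩ := exists_multiset_of_monic (K := K) q hqm
  rcases Multiset.empty_or_exists_mem s with rfl | ⟨α, hα⟩
  · exfalso
    rw [Multiset.map_zero, Multiset.prod_zero] at hs
    rw [hs, Polynomial.map_one] at hq
    exact hirr.not_isUnit (hq ▸ isUnit_one)
  · refine ⟨φ α, ?_⟩
    rw [← hq, hs, Polynomial.map_multiset_prod, Polynomial.eval_multiset_prod]
    apply Multiset.prod_eq_zero
    rw [Multiset.map_map, Multiset.map_map, Multiset.mem_map]
    exact ⟨α, hα, by simp⟩

end Fermat.Agent.S48.Lift
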