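/-
S48 (Deligne-Serre), block LIFT: MAIN THEOREM.  A two dimensional representation of a finite group
`G` over a residue field `k` of `R = ` (a ring integrally closed in an algebraically closed field `K`),
`|G|` invertible in `k`, lifts to `K`, with trace and determinant in `R` reducing to those of the given
representation.  No completions.
-/
import Fermat.Agent.S48.Lift.Reg
import Fermat.Agent.S48.Lift.Split
import Fermat.Agent.S48.Lift.Loc
import Fermat.Agent.S48.Lift.Integral

set_option autoImplicit false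

namespace Fermat.Agent.S48.Lift

open Polynomial Matrix
open scoped MatrixGroups

theorem exists_lift_main {R K k : Type*} [CommRing R] [Field K] [IsAlgClosed K] [Algebra R K]
    [IsIntegrallyClosedIn R K] [Field k] (φ : R →+* k) (hφ : Function.Surjective φ)
    {G : Type*} [Group G] [Finite G] (hG : (Nat.card G : k) ≠ 0)
    {n : Type*} [Fintype n] [DecidableEq n] (ρbar : G →* Matrix n n k) :
    ∃ ρ : G →* Matrix n n K, ∀ g, ∃ t d : R,
      algebraMap R K t = (ρ g).trace ∧ algebraMap R K d = (ρ g).det ∧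
      φ t = (ρbar g).trace ∧ φ d = (ρbar g).det := by
  obtain ⟨O, _, _, _, j, ψ, hloc, hψ, hψj, hj⟩ := exists_localization (K := K) φ hφ
  obtain ⟨ρO, hρO⟩ := exists_lift ψ hψ (fun P hP => exists_multiset_of_monic (K := K) P hP) hG ρbar
  have hinj : Function.Injective (algebraMap O K) := IsIntegralClosure.algebraMap_injective O O K
  refine ⟨((algebraMap O K).mapMatrix (m := n)).toMonoidHom.comp ρO, fun g => ?_⟩
  have hN : 0 < Nat.card G := Nat.card_pos
  have hpow : (((algebraMap O K).mapMatrix (m := n)).toMonoidHom.comp ρO g) ^ Nat.card G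
      = 1 := by
    rw [← map_pow, pow_card_eq_one', map_one]
  have ht : IsIntegral R (((algebraMap O K).mapMatrix (m := n)).toMonoidHom.comp ρO g).trace :=
    (isIntegral_trace_of_pow_eq_one hN hpow).tower_top
  have hd : IsIntegral R (((algebraMap O K).mapMatrix (m := n)).toMonoidHom.comp ρO g).det :=
    (isIntegral_det_of_pow_eq_one hN hpow).tower_top
  obtain ⟨t, ht⟩ := IsIntegrallyClosedIn.isIntegral_iff.1 ht
  obtain ⟨d, hd⟩ := IsIntegrallyClosedIn.isIntegral_iff.1 hd
  refine ⟨t, d, ht, hd, ?_, ?_⟩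
  · have h1 : j t = (ρO g).trace := by
      apply hinj
      rw [hj, ht]
      simp [Matrix.trace, Matrix.map_apply]
    rw [← hψj, h1, ← hρO]
    simp [Matrix.trace, Matrix.map_apply]
  · have h1 : j d = (ρO g).det := by
      apply hinj
      rw [hj, hd, RingHom.map_det]
      rfl
    rw [← hψj, h1, ← hρO, RingHom.map_det]
    rfl

/-- The form used in S48: `R = integralClosure ℤ ℂ`, `ρbar` on a two dimensional `k`-vector space. -/
theorem exists_complex_lift {k : Type*} [Field k] (φ : integralClosure ℤ ℂ →+* k)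
    (hφ : Function.Surjective φ) {G : Type*} [Group G] [Finite G] (hG : (Nat.card G : k) ≠ 0)
    {V : Type*} [AddCommGroup V] [Module k V] [Module.Finite k V] (h2 : Module.finrank k V = 2)
    (ρbar : G →* Module.End k V) :
    ∃ ρ : G →* GL (Fin 2) ℂ, ∀ g, ∃ t d : integralClosure ℤ ℂ,
      (t : ℂ) = (ρ g : Matrix (Fin 2) (Fin 2) ℂ).trace ∧
      (d : ℂ) = (ρ g : Matrix (Fin 2) (Fin 2) ℂ).det ∧
      (ρbar g).charpoly = X ^ 2 - C (φ t) * X + C (φ d) := by
  classical
  let b : Module.Basis (Fin 2) k V := Module.finBasisOfFinrankEq k V h2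
  let e : Module.End k V ≃ₐ[k] Matrix (Fin 2) (Fin 2) k := LinearMap.toMatrixAlgEquiv b
  let ρM : G →* Matrix (Fin 2) (Fin 2) k := (e : Module.End k V →* Matrix (Fin 2) (Fin 2) k).comp ρbar
  have hρM : ∀ g, (ρM g).charpoly = (ρbar g).charpoly := by
    intro g
    show (LinearMap.toMatrix b b (ρbar g)).charpoly = _
    exact LinearMap.charpoly_toMatrix (ρbar g) b
  obtain ⟨ρ, hρ⟩ := exists_lift_main (K := ℂ) φ hφ hG ρM
  refine ⟨ρ.toHomUnits, fun g => ?_⟩
  obtain ⟨t, d, ht, hd, ht', hd'⟩ := hρ g
  refine ⟨t, d, ht, hd, ?_⟩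
  rw [← hρM, Matrix.charpoly_fin_two, ht', hd']

end Fermat.Agent.S48.Lift
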